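/-
S55 / REC2-TOW, leaf ALG-A (helper417): `exactCount : ExactCountSpec`,
`pPrimaryLift : PPrimaryLiftSpec`.  Elementary, Mathlib only.
-/
import Fermat.Agent.S55.G.Rec.Tow.Spec

set_option autoImplicit false

namespace Fermat.Agent.S55.G.Rec.TOW.H417

open Fermat.Agent.S55

/-- **ALG-EX**: exactness by counting. -/
theorem exactCount : ExactCountSpec := by
  intro X Y T _ _ _ j σ m hm hker hfin hdvd ⟨y₀, hy₀⟩
  classical
  have := hfin
  let _ : Fintype Y := Fintype.ofFinite Y
  -- the map `t ↦ j (t • y₀)` on `Fin m` is injective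
  let f : Fin m → Y := fun t => j ((t : ℕ) • y₀)
  have key : ∀ a b : ℕ, a ≤ b → b < m → j (a • y₀) = j (b • y₀) → a = b := by
    intro a b hab hb h
    have h1 : j ((b - a) • y₀) = 0 := by
      have : (b - a) • y₀ = b • y₀ - a • y₀ := by
        rw [eq_sub_iff_add_eq, ← add_smul, Nat.sub_add_cancel hab]
      rw [this, map_sub, h, sub_self]
    have h2 : (b - a) • σ y₀ = 0 := by
      rw [← map_nsmul]
      exact hker _ h1
    have h3 : m ∣ b - a := hy₀ _ h2
    have h4 : b - a = 0 := Nat.eq_zero_of_dvd_of_lt h3 (lt_of_le_of_lt (Nat.sub_le b a) hb)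
    omega
  have hf : Function.Injective f := by
    intro s t hst
    apply Fin.ext
    rcases le_total (s : ℕ) (t : ℕ) with h | h
    · exact key _ _ h t.2 hst
    · exact (key _ _ h s.2 hst.symm).symm
  have hcard_le : m ≤ Nat.card Y := by
    have := Fintype.card_le_of_injective f hf
    rwa [Fintype.card_fin, ← Nat.card_eq_fintype_card] at this
  have hcard : Nat.card Y = m := le_antisymm (Nat.le_of_dvd hm hdvd) hcard_le
  have hbij : Function.Bijective f := by
    rw [Fintype.bijective_iff_injective_and_card]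
    refine ⟨hf, ?_⟩
    rw [Fintype.card_fin, ← Nat.card_eq_fintype_card, hcard]
  refine ⟨?_, hcard⟩
  intro x hx
  obtain ⟨t, ht⟩ := hbij.2 (j x)
  have h1 : j (x - (t : ℕ) • y₀) = 0 := by
    rw [map_sub]
    change j x - f t = 0
    rw [ht, sub_self]
  have h2 : σ (x - (t : ℕ) • y₀) = 0 := hker _ h1
  have h3 : (t : ℕ) • σ y₀ = 0 := by
    rw [map_sub, hx, zero_sub, neg_eq_zero, map_nsmul] at h2
    exact h2
  have h4 : (t : ℕ) = 0 := Nat.eq_zero_of_dvd_of_lt (hy₀ _ h3) t.2
  rw [← ht]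
  change j ((t : ℕ) • y₀) = 0
  rw [h4, zero_smul, map_zero]

/-- **ALG-PP**: `p`-primary lifts. -/
theorem pPrimaryLift : PPrimaryLiftSpec := by
  intro p hp X Y _ _ f N hN hkill x ⟨b, hb⟩
  -- `N = p ^ a * N'` with `p ∤ N'`
  obtain ⟨a, N', hN', hNeq⟩ := Nat.exists_eq_pow_mul_and_not_dvd hN.ne' p hp.ne_one
  have hcop : Nat.Coprime (p ^ (a + b)) N' :=
    Nat.Coprime.pow_left _ ((Nat.Prime.coprime_iff_not_dvd hp).2 hN')
  obtain ⟨e, he1, he0⟩ := Nat.chineseRemainder hcop 1 0
  refine ⟨e • x, ⟨a + b, ?_⟩, ?_⟩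
  · -- `p ^ (a+b) • e • x = 0`
    have h0 : N' ∣ e := (Nat.modEq_zero_iff_dvd).1 he0
    obtain ⟨u, hu⟩ := h0
    have : p ^ (a + b) * e = N * (p ^ b * u) := by
      rw [hu, hNeq, pow_add]; ring
    rw [smul_smul, this, mul_comm, mul_smul, hkill, smul_zero]
  · -- `f (e • x) = f x`
    rw [map_nsmul]
    have h1 : (p ^ (a + b) : ℤ) ∣ (e : ℤ) - 1 := by
      have := (Nat.modEq_iff_dvd.1 he1.symm)
      simpa using this
    obtain ⟨u, hu⟩ := h1
    have h2 : ((p ^ (a + b) : ℕ) : ℤ) • f x = 0 := by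
      rw [natCast_zsmul, pow_add, mul_smul, hb, smul_zero]
    have h3 : (e : ℤ) = 1 + (p ^ (a + b) : ℤ) * u := by linarith
    have h4 : ((e : ℤ)) • f x = f x := by
      rw [h3, add_smul, one_smul, mul_comm, mul_smul]
      have : ((p : ℤ) ^ (a + b)) • f x = 0 := by
        have := h2
        push_cast at this
        exact this
      rw [this, smul_zero, add_zero]
    rw [← natCast_zsmul]
    exact h4

end Fermat.Agent.S55.G.Rec.TOW.H417
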