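/-
S55 / REC2-TOW (helper417): functoriality lemmas for `h2Top`, `h2Sub` and `p`-primary elements.
-/
import Fermat.Agent.S55.G.Rec.Tow.Spec

set_option autoImplicit false

open CategoryTheory groupCohomology

namespace Fermat.Agent.S55.G.Rec.TOW.H417

open Fermat.Agent.S55

variable {Γ : Type} [Group Γ]

lemma h2Top_comp {A B C : Rep.{0} ℤ Γ} (f : A ⟶ B) (g : B ⟶ C) (x : groupCohomology A 2) :
    h2Top (f ≫ g) x = h2Top g (h2Top f x) := by
  change (T.coeffMap (f ≫ g) 2).hom x = (T.coeffMap g 2).hom ((T.coeffMap f 2).hom x)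
  have h : T.coeffMap (f ≫ g) 2 = T.coeffMap f 2 ≫ T.coeffMap g 2 :=
    groupCohomology.map_id_comp f g 2
  rw [h]
  rfl

lemma h2Top_id (A : Rep.{0} ℤ Γ) (x : groupCohomology A 2) : h2Top (𝟙 A) x = x := by
  change (T.coeffMap (𝟙 A) 2).hom x = x
  have h : T.coeffMap (𝟙 A) 2 = 𝟙 _ := groupCohomology.map_id (B := A) (n := 2)
  rw [h]
  rfl

lemma h2Top_zero (A B : Rep.{0} ℤ Γ) (x : groupCohomology A 2) :
    h2Top (0 : A ⟶ B) x = 0 := by
  change ((groupCohomology.functor ℤ Γ 2).map (0 : A ⟶ B)).hom x = 0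
  rw [CategoryTheory.Functor.map_zero]
  rfl

lemma h2Sub_comp {A B C : Rep.{0} ℤ Γ} (f : A ⟶ B) (g : B ⟶ C) (H : Subgroup Γ)
    (x : groupCohomology (T.resSub A H) 2) :
    h2Sub (f ≫ g) H x = h2Sub g H (h2Sub f H x) := by
  change h2Top ((Rep.resFunctor H.subtype).map (f ≫ g)) x = _
  rw [CategoryTheory.Functor.map_comp, h2Top_comp]

lemma h2Sub_id (A : Rep.{0} ℤ Γ) (H : Subgroup Γ) (x : groupCohomology (T.resSub A H) 2) :
    h2Sub (𝟙 A) H x = x := by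
  change h2Top ((Rep.resFunctor H.subtype).map (𝟙 A)) x = _
  rw [CategoryTheory.Functor.map_id]
  exact h2Top_id _ x

lemma h2Sub_zero (A B : Rep.{0} ℤ Γ) (H : Subgroup Γ) (x : groupCohomology (T.resSub A H) 2) :
    h2Sub (0 : A ⟶ B) H x = 0 := by
  change h2Top ((Rep.resFunctor H.subtype).map (0 : A ⟶ B)) x = _
  have : (Rep.resFunctor H.subtype).map (0 : A ⟶ B) = 0 := rfl
  rw [this]
  exact h2Top_zero _ _ x

lemma isPPrimary_map {p : ℕ} {X Y : Type} [AddCommGroup X] [AddCommGroup Y] (f : X →+ Y) {x : X}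
    (hx : E1.IsPPrimary p x) : E1.IsPPrimary p (f x) := by
  obtain ⟨k, hk⟩ := hx
  exact ⟨k, by rw [← map_nsmul, hk, map_zero]⟩

lemma isPPrimary_nsmul {p : ℕ} {X : Type} [AddCommGroup X] {x : X} (n : ℕ)
    (hx : E1.IsPPrimary p x) : E1.IsPPrimary p (n • x) := by
  obtain ⟨k, hk⟩ := hx
  exact ⟨k, by rw [smul_comm, hk, smul_zero]⟩

lemma isPPrimary_of_card_pow {p : ℕ} {X : Type} [AddCommGroup X] {x : X} (k : ℕ)
    (hx : p ^ k • x = 0) : E1.IsPPrimary p x := ⟨k, hx⟩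

end Fermat.Agent.S55.G.Rec.TOW.H417
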