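/-
S55 / REC2-TOW (helper417): `gd3_of : Gd3AssemblySpec p`  (memo T5: local–global injectivity
from reciprocity over `ℚ`).
-/
import Fermat.Agent.S55.G.Rec.Tow.H417.Basic

set_option autoImplicit false

open CategoryTheory groupCohomology

namespace Fermat.Agent.S55.G.Rec.TOW.H417

open Fermat.Agent.S55 Fermat.Agent.S55.Tow Fermat.Agent.S55.E1.H594

/-- **GD3**. -/
theorem gd3_of (p : ℕ) : Gd3AssemblySpec p := by
  intro I hK hN S L q hq y hy hat hj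
  have hSne : S.Nonempty := ⟨q, hq⟩
  have h1 : h2Sub (lvlj L) ⊤ (res2 (lvlJ L) ⊤ y) = 0 := by
    rw [hN L.Gal (lvlJ L) (lvlC L) (lvlj L) ⊤ y, hj, map_zero]
  have h2 : I.σ L ⊤ (res2 (lvlJ L) ⊤ y) = 0 :=
    hK S hSne L ⊤ _ (isPPrimary_map (res2 (lvlJ L) ⊤).toAddMonoidHom hy) h1
  exact I.injAt L q y hy hat h2

end Fermat.Agent.S55.G.Rec.TOW.H417
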