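/-
S55 / REC2-TOW (helper417): `kerJ_of : KerJAssemblySpec p`  — reciprocity in the form
"a `p`-primary class of `H²(H, J_S(M))` dying in `H²(H, C_S(M))` has semilocal invariant `0`".
-/
import Fermat.Agent.S55.G.Rec.Tow.H417.Basic

set_option autoImplicit false

open CategoryTheory groupCohomology

namespace Fermat.Agent.S55.G.Rec.TOW.H417

open Fermat.Agent.S55 Fermat.Agent.S55.Tow Fermat.Agent.S55.E1.H594

/-- **KERJ**. -/
theorem kerJ_of (p : ℕ) : KerJAssemblySpec p := by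
  intro hp I hSES hEx hPP hCT S hS M H a ha hja
  have hX : (G.classShortComplex S M.Gal M.F).ShortExact := hSES S M.Gal M.F hS
  obtain ⟨-, hExH⟩ := hEx M.Gal (G.classShortComplex S M.Gal M.F) hX
  -- `z := inl_* a` dies in `H²(H, C)`
  have hz0 : h2Sub (G.quotRepHom S M.Gal M.F) H (h2Sub (G.jInlRepHom S M.Gal M.F) H a) = 0 := by
    rw [← h2Sub_comp]
    exact hja
  obtain ⟨x, hx⟩ := hExH H _ hz0
  -- a `p`-primary lift
  have hkill : ∀ x : groupCohomology (T.resSub (lvlL M) H) 2, Nat.card H • x = 0 :=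
    fun x => hCT ℤ H (T.resSub (lvlL M) H) 2 (by norm_num) x
  have hzp : E1.IsPPrimary p
      ((h2Sub (G.diagRepHom S M.Gal M.F) H).toAddMonoidHom x) := by
    change E1.IsPPrimary p (h2Sub (G.diagRepHom S M.Gal M.F) H x)
    have hx' : h2Sub (G.diagRepHom S M.Gal M.F) H x =
        h2Sub (G.jInlRepHom S M.Gal M.F) H a := hx
    rw [hx']
    exact isPPrimary_map (h2Sub (G.jInlRepHom S M.Gal M.F) H).toAddMonoidHom ha
  obtain ⟨x', hx'p, hx'⟩ := hPP p hp _ _ (h2Sub (G.diagRepHom S M.Gal M.F) H).toAddMonoidHom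
    (Nat.card H) Nat.card_pos hkill x hzp
  have hx'' : h2Sub (G.diagRepHom S M.Gal M.F) H x' =
      h2Sub (G.jInlRepHom S M.Gal M.F) H a := hx'.trans hx
  -- the divisor class of `x'` vanishes
  have hord : h2Sub (G.ordRepHom S M.Gal M.F) H x' = 0 := by
    rw [← diagRepHom_comp_divSnd, h2Sub_comp, hx'', ← h2Sub_comp, jInl_comp_divSnd]
    exact h2Sub_zero _ _ H a
  -- the idèle class of `x'` is `a`
  have hdiag : h2Sub (diagJRepHom S M.Gal M.F) H x' = a := by
    rw [← diagRepHom_comp_jdFst, h2Sub_comp, hx'', ← h2Sub_comp, jInl_comp_jdFst]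
    exact h2Sub_id _ H a
  have := I.recip M H x' hx'p hord
  rwa [hdiag] at this

end Fermat.Agent.S55.G.Rec.TOW.H417
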