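/-
S55 / REC2-TOW (helper417): `totExact_of : TotExactAssemblySpec p`  (memo T4': exactness at a
totally ramified place, by counting).
-/
import Fermat.Agent.S55.G.Rec.Tow.H417.Basic

set_option autoImplicit false

open CategoryTheory groupCohomology

namespace Fermat.Agent.S55.G.Rec.TOW.H417

open Fermat.Agent.S55 Fermat.Agent.S55.Tow Fermat.Agent.S55.E1.H594

/-- In a finite `p`-group every class of `H²` is `p`-primary. -/
lemma isPPrimary_of_isPGroup (hCT : T.CardTorsionSpec) {p : ℕ} (hp : p.Prime) {Γ : Type} [Group Γ]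
    [Finite Γ] (A : Rep.{0} ℤ Γ) (Z : Subgroup Γ) (hZ : IsPGroup p Z)
    (a : groupCohomology (T.resSub A Z) 2) : E1.IsPPrimary p a := by
  haveI : Fact p.Prime := ⟨hp⟩
  obtain ⟨n, hn⟩ := hZ.exists_card_eq
  refine ⟨n, ?_⟩
  rw [← hn]
  exact hCT ℤ Z (T.resSub A Z) 2 (by norm_num) a

/-- **T4'**. -/
theorem totExact_of (p : ℕ) : TotExactAssemblySpec p := by
  intro I hK hUP hEC hCT S hp hp2 hpS M hMu r hr Z hZ hfix
  have hSne : S.Nonempty := ⟨_, hpS⟩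
  obtain ⟨-, hfin, hdvd⟩ := hUP S hp hp2 hpS M hMu Z hZ
  obtain ⟨y₀, -, hy₀⟩ := I.locClass M r hr Z Z le_rfl hZ hfix
  exact hEC _ _ _ (h2Sub (lvlj M) Z).toAddMonoidHom (I.σ M Z) (Nat.card Z) Nat.card_pos
    (fun a ha => hK S hSne M Z a (isPPrimary_of_isPGroup hCT hp _ Z hZ a) ha)
    hfin hdvd ⟨y₀, hy₀⟩

end Fermat.Agent.S55.G.Rec.TOW.H417
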