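/-
S55 / REC2-TOW (helper417, sub-architect): CLOSED FORMS of the TOW block — the targets
`Gd1Spec`, `Gd3Spec`, `Gd8Spec` from the arithmetic inputs only, all pure-algebra leaves and
assemblies being discharged by the landed proofs
(H323 ALG-B, H371 ALG-CM, H953 ALG-INF, H781 gd1_of, H139 up_of, H417 ALG-A/KERJ/T4'/GD3).

  `kerJ      : p.Prime → ∀ I : SemiLocalInv p, KerJSpec p I`
  `totExact  : p.Prime → ∀ I : SemiLocalInv p, G.PClassUpperSpec → TotExactSpec p I`
  `gd3       : p.Prime → SemiLocalInv p → Gd3Spec p`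
  `gd8       : G.PClassUpperSpec → Gd8Spec p`
  `gd1       : p.Prime → SemiLocalInv p → G.PClassUpperSpec → DescSpec → G.SIndepSpec →
                 RamSpec p → Gd1Spec p`
-/
import Fermat.Agent.S55.G.Rec.Tow.H417.AlgA
import Fermat.Agent.S55.G.Rec.Tow.H417.KerJ
import Fermat.Agent.S55.G.Rec.Tow.H417.TotExact
import Fermat.Agent.S55.G.Rec.Tow.H417.Gd3
import Fermat.Agent.S55.G.Rec.Tow.H323.AlgB
import Fermat.Agent.S55.G.Rec.Tow.H371.ClassModuleOfSylow
import Fermat.Agent.S55.G.Rec.Tow.H953.AlgInf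
import Fermat.Agent.S55.G.Rec.Tow.H781.Gd1
import Fermat.Agent.S55.G.Rec.Tow.H139.UpTow
import Fermat.Agent.S55.G.SesSpecH604
import Fermat.Agent.S55.T.CoresH572

set_option autoImplicit false

namespace Fermat.Agent.S55.G.Rec.TOW.H417

open Fermat.Agent.S55

/-- KERJ, closed. -/
theorem kerJ {p : ℕ} (hp : p.Prime) (I : SemiLocalInv p) : KerJSpec p I :=
  kerJ_of p hp I G.SesSpecH604.classShortExactSpec H323.h2Exact pPrimaryLift T.H572.cardTorsion

/-- T4', closed (modulo G-UP). -/
theorem totExact {p : ℕ} (hp : p.Prime) (I : SemiLocalInv p) (hUP : G.PClassUpperSpec) :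
    TotExactSpec p I :=
  totExact_of p I (kerJ hp I) (H139.up_of p hUP) exactCount T.H572.cardTorsion

/-- **GD3** from the semilocal invariants. -/
theorem gd3 {p : ℕ} (hp : p.Prime) (I : SemiLocalInv p) : Gd3Spec p :=
  gd3_of p I (kerJ hp I) H323.resCoeffNat

/-- **GD8** from G-UP. -/
theorem gd8 {p : ℕ} (hUP : G.PClassUpperSpec) : Gd8Spec p :=
  H953.gd8 p (H139.up_of p hUP)

/-- **GD1** from the semilocal invariants, G-UP, descent, independence of `S` and the auxiliary
level. -/
theorem gd1 {p : ℕ} (hp : p.Prime) (I : SemiLocalInv p) (hUP : G.PClassUpperSpec)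
    (hDesc : DescSpec) (hSInd : G.SIndepSpec) (hRam : RamSpec p) : Gd1Spec p :=
  H781.gd1_of p I (kerJ hp I) (totExact hp I hUP) (H139.up_of p hUP) hDesc hSInd hRam
    H323.resTop H323.resCoeffNat H371.classModuleOfSylow H953.infResLift H323.resMapNat
    T.H572.resIndex

end Fermat.Agent.S55.G.Rec.TOW.H417
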