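/-
S55 / REC2-TOW (helper417): `gd8_of : Gd8AssemblySpec p`  (memo T7: inflation is injective on
`p`-primary classes; formal from G-UP and descent).
-/
import Fermat.Agent.S55.G.Rec.Tow.H417.Basic

set_option autoImplicit false

open CategoryTheory groupCohomology

namespace Fermat.Agent.S55.G.Rec.TOW.H417

open Fermat.Agent.S55 Fermat.Agent.S55.Tow Fermat.Agent.S55.E1.H594

/-- **GD8**. -/
theorem gd8_of (p : ℕ) : Gd8AssemblySpec p := by
  intro hUP hInf S hp hp2 hpS L M h hMu ι hι z hz hinf
  exact hInf p hp M.Gal L.Gal (Level.proj h) (level_proj_surjective h) (lvlC L) (lvlC M) ι hι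
    (fun Q _ hQ => (hUP S hp hp2 hpS M hMu Q hQ).1) z hz hinf

end Fermat.Agent.S55.G.Rec.TOW.H417
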